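/-
S58lib / Par / AddSub  (helper1)

**Mathlib's `WeierstrassCurve.addSubMap` does what it claims.**  For two points `P Q` of a
Weierstrass curve over a field, the three quadratic forms of `addSubMap` evaluated at
`P.sym2x Q ∼ (x(P) x(Q) : x(P) + x(Q) : 1)` are proportional (by a nonzero factor) to
`(P + Q).sym2x (P - Q) ∼ (x(P+Q) x(P-Q) : x(P+Q) + x(P-Q) : 1)`.

* `addX_mul_addX` : the product formula
  `x(A+B) x(A-B) (x₁ - x₂)² = x₁² x₂² - b₄ x₁ x₂ - b₆ (x₁ + x₂) - b₈`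
  (companion of `S13lib.addX_add_addX`);
* `addSubMap_sym2x` : the statement above, all cases (zero points, `P = ± Q`, 2-torsion).
-/
import Mathlib
import Fermat.Agent.S13lib.LadderCore

set_option autoImplicit false
set_option linter.unusedSectionVars false

namespace Fermat.Agent.S58lib.Par

open WeierstrassCurve MvPolynomial
open Fermat.Agent.S13lib

section ring

variable {R : Type*} [CommRing R] (W : WeierstrassCurve R)

/-- Explicit evaluation of the three quadratic forms of `addSubMap`. -/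
lemma addSubMap_eval (v : Fin 3 → R) :
    (fun i => (W.addSubMap i).eval v) =
      ![v 0 ^ 2 - W.b₄ * v 0 * v 2 - W.b₆ * v 1 * v 2 - W.b₈ * v 2 ^ 2,
        2 * v 1 * v 0 + W.b₂ * v 0 * v 2 + W.b₄ * v 1 * v 2 + W.b₆ * v 2 ^ 2,
        v 1 ^ 2 - 4 * v 0 * v 2] := by
  funext i
  fin_cases i <;> simp [addSubMap]

end ring

section field

variable {F : Type*} [Field F] {W : Affine F}

/-- `(y₁ - y₂) (ȳ₁ - y₂)` is divisible by `x₁ - x₂` on the curve. -/
lemma sub_mul_negY_sub {x₁ y₁ x₂ y₂ : F} (h₁ : W.Equation x₁ y₁) (h₂ : W.Equation x₂ y₂) :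
    (y₁ - y₂) * (W.negY x₁ y₁ - y₂) =
      (x₁ - x₂) * (W.a₁ * y₂ - (x₁ ^ 2 + x₁ * x₂ + x₂ ^ 2 + W.a₂ * (x₁ + x₂) + W.a₄)) := by
  rw [Affine.equation_iff] at h₁ h₂
  simp only [Affine.negY]
  linear_combination -h₁ + h₂

/-- The product formula `x(A+B) x(A-B)`, with abstract slopes. -/
lemma addX_mul_addX_aux {x₁ y₁ x₂ y₂ ℓ m : F} (h₁ : W.Equation x₁ y₁) (h₂ : W.Equation x₂ y₂)
    (hx : x₁ ≠ x₂)
    (hℓ : ℓ * (x₁ - x₂) = y₁ - y₂) (hm : m * (x₂ - x₁) = y₂ - W.negY x₁ y₁) :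
    (W.addX x₁ x₂ ℓ * W.addX x₂ x₁ m) * (x₁ - x₂) ^ 2 =
      x₁ ^ 2 * x₂ ^ 2 - W.b₄ * x₁ * x₂ - W.b₆ * (x₁ + x₂) - W.b₈ := by
  have hd : x₁ - x₂ ≠ 0 := sub_ne_zero.mpr hx
  have hK := sub_mul_negY_sub h₁ h₂
  have hR3 : ℓ * m * (x₁ - x₂) =
      W.a₁ * y₂ - (x₁ ^ 2 + x₁ * x₂ + x₂ ^ 2 + W.a₂ * (x₁ + x₂) + W.a₄) := by
    apply mul_right_cancel₀ hd
    linear_combination (m * (x₁ - x₂)) * hℓ - (y₁ - y₂) * hm + hK
  rw [Affine.equation_iff] at h₁ h₂
  simp only [Affine.negY] at hm hK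
  simp only [Affine.addX, WeierstrassCurve.b₄, WeierstrassCurve.b₆, WeierstrassCurve.b₈]
  linear_combination
    (W.a₁ * (ℓ * m * (x₁ - x₂)) - (x₁ + x₂ + W.a₂) * (ℓ * (x₁ - x₂) + (y₁ - y₂))
        - W.a₁ * (x₁ + x₂ + W.a₂) * (x₁ - x₂)) * hℓ
    - (W.a₁ * (ℓ * m * (x₁ - x₂))
        - (x₁ + x₂ + W.a₂) * (m * (x₁ - x₂) + (-y₁ - W.a₁ * x₁ - W.a₃ - y₂))
        - W.a₁ * (x₁ + x₂ + W.a₂) * (x₁ - x₂)) * hm
    + ((ℓ * m * (x₁ - x₂)
          + (W.a₁ * y₂ - (x₁ ^ 2 + x₁ * x₂ + x₂ ^ 2 + W.a₂ * (x₁ + x₂) + W.a₄)))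
        + W.a₁ * (-2 * y₂ - W.a₁ * x₁ - W.a₃) + W.a₁ ^ 2 * (x₁ - x₂)) * hR3
    + 2 * (x₁ + x₂ + W.a₂) * hK
    - (W.a₁ ^ 2 + 4 * (x₁ + x₂ + W.a₂)) * h₂

/-- The product formula `x(A+B) x(A-B)` for two affine points with distinct x-coordinates. -/
lemma addX_mul_addX {x₁ y₁ x₂ y₂ : F} (h₁ : W.Equation x₁ y₁) (h₂ : W.Equation x₂ y₂)
    (hx : x₁ ≠ x₂) :
    (W.addX x₁ x₂ ((y₁ - y₂) / (x₁ - x₂)) *
      W.addX x₂ x₁ ((y₂ - W.negY x₁ y₁) / (x₂ - x₁))) * (x₁ - x₂) ^ 2 =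
      x₁ ^ 2 * x₂ ^ 2 - W.b₄ * x₁ * x₂ - W.b₆ * (x₁ + x₂) - W.b₈ := by
  have hx' : x₁ - x₂ ≠ 0 := sub_ne_zero.mpr hx
  have hx'' : x₂ - x₁ ≠ 0 := sub_ne_zero.mpr (Ne.symm hx)
  exact addX_mul_addX_aux h₁ h₂ hx (div_mul_cancel₀ _ hx') (div_mul_cancel₀ _ hx'')

variable [DecidableEq F]

/-- A projective x-coordinate `(X : Z)` of `R` gives `(X, Z, 0) ∼ sym2x R 0`. -/
lemma exists_smul_sym2x_zero {X Z : F} {R : W.Point} (h : XRep W X Z R) :
    ∃ c : F, c ≠ 0 ∧ ![X, Z, 0] = c • R.sym2x 0 := by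
  cases R with
  | zero =>
    obtain ⟨hZ, hX⟩ := h
    refine ⟨X, hX, ?_⟩
    have : (Affine.Point.zero : W.Point) = 0 := rfl
    rw [this, Affine.Point.sym2x_zero_zero, hZ]
    simp
  | some x y hxy =>
    obtain ⟨hZ, hX⟩ := h
    refine ⟨Z, hZ, ?_⟩
    rw [Affine.Point.sym2x_some_zero, hX]
    simp [mul_comm]

/-- The case `Q = ± P` of `addSubMap_sym2x`: the duplication formula. -/
lemma addSubMap_sym2x_self (P : W.Point) :
    ∃ c : F, c ≠ 0 ∧
      (fun i => (WeierstrassCurve.addSubMap W i).eval (P.sym2x P)) = c • (P + P).sym2x 0 := by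
  cases P with
  | zero =>
    have h0 : (Affine.Point.zero : W.Point) = 0 := rfl
    refine ⟨1, one_ne_zero, ?_⟩
    rw [h0, add_zero, Affine.Point.sym2x_zero_zero, addSubMap_eval]
    simp
  | some x y hxy =>
    have hrep : XRep W x 1 (Affine.Point.some x y hxy) := ⟨one_ne_zero, (mul_one x).symm⟩
    obtain ⟨c, hc, hc'⟩ := exists_smul_sym2x_zero (xrep_dbl hrep)
    refine ⟨c, hc, ?_⟩
    rw [← hc', Affine.Point.sym2x_some_some, addSubMap_eval]
    simp only [ldblX, ldblZ, Matrix.cons_val_zero, Matrix.cons_val_one, Matrix.cons_val]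
    congr 1
    · ring
    · congr 1
      · ring
      · congr 1
        ring

/-- **`addSubMap` does what it claims**: for points `P Q` of a Weierstrass curve over a field,
`addSubMap (x(P) x(Q) : x(P) + x(Q) : 1) ∼ (x(P+Q) x(P-Q) : x(P+Q) + x(P-Q) : 1)`. -/
theorem addSubMap_sym2x (P Q : W.Point) :
    ∃ c : F, c ≠ 0 ∧
      (fun i => (WeierstrassCurve.addSubMap W i).eval (P.sym2x Q)) =
        c • (P + Q).sym2x (P - Q) := by
  by_cases hPQ : P.xRep = Q.xRep
  · have h1 : (P + Q).sym2x (P - Q) = (P + P).sym2x 0 := by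
      rcases Affine.Point.eq_or_eq_neg_of_xRep_eq_xRep hPQ with h | h
      · subst h; simp
      · subst h
        rw [neg_add_cancel, sub_eq_add_neg, ← neg_add, Affine.Point.sym2x_neg_right,
          Affine.Point.sym2x_comm, Affine.Point.sym2x_neg_left]
    have h2 : P.sym2x Q = P.sym2x P := by
      simp only [Affine.Point.sym2x, hPQ]
    rw [h1, h2]
    exact addSubMap_sym2x_self P
  · cases P with
    | zero =>
      have h0 : (Affine.Point.zero : W.Point) = 0 := rfl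
      rw [h0] at hPQ ⊢
      cases Q with
      | zero => exact absurd rfl hPQ
      | some x y hxy =>
        refine ⟨1, one_ne_zero, ?_⟩
        rw [zero_add, zero_sub, Affine.Point.sym2x_neg_right, Affine.Point.sym2x_zero_some,
          Affine.Point.sym2x_some_some, addSubMap_eval]
        simp
        refine ⟨by ring, by ring⟩
    | some x₁ y₁ h₁ =>
      cases Q with
      | zero =>
        have h0 : (Affine.Point.zero : W.Point) = 0 := rfl
        refine ⟨1, one_ne_zero, ?_⟩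
        rw [h0, add_zero, sub_zero, Affine.Point.sym2x_some_zero,
          Affine.Point.sym2x_some_some, addSubMap_eval]
        simp
        refine ⟨by ring, by ring⟩
      | some x₂ y₂ h₂ =>
        have hx : x₁ ≠ x₂ := by
          intro h
          apply hPQ
          rw [Affine.Point.xRep_some, Affine.Point.xRep_some, h]
        have hd : x₁ - x₂ ≠ 0 := sub_ne_zero.mpr hx
        have hd' : x₂ - x₁ ≠ 0 := sub_ne_zero.mpr (Ne.symm hx)
        refine ⟨(x₁ - x₂) ^ 2, pow_ne_zero 2 hd, ?_⟩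
        have hsub : Affine.Point.some x₁ y₁ h₁ - Affine.Point.some x₂ y₂ h₂ =
            Affine.Point.some x₁ y₁ h₁ +
              Affine.Point.some x₂ (W.negY x₂ y₂) ((Affine.nonsingular_neg ..).mpr h₂) := by
          rw [sub_eq_add_neg, Affine.Point.neg_some]
        rw [hsub, Affine.Point.add_of_X_ne hx,
          Affine.Point.add_of_X_ne hx, Affine.Point.sym2x_some_some,
          Affine.Point.sym2x_some_some, addSubMap_eval,
          Affine.slope_of_X_ne hx, Affine.slope_of_X_ne hx]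
        have hℓ : (y₁ - y₂) / (x₁ - x₂) * (x₂ - x₁) = y₂ - y₁ := by
          field_simp; ring
        have hm : (y₁ - W.negY x₂ y₂) / (x₁ - x₂) * (x₁ - x₂) = y₁ - W.negY x₂ y₂ :=
          div_mul_cancel₀ _ hd
        have hsum := addX_add_addX_aux h₂.1 h₁.1 hℓ hm
        have hprod := addX_mul_addX_aux h₂.1 h₁.1 (Ne.symm hx) hℓ hm
        simp only [Affine.addX] at hsum hprod ⊢
        simp only [Matrix.cons_val_zero, Matrix.cons_val_one, Matrix.cons_val, Matrix.smul_cons,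
          smul_eq_mul, Matrix.smul_empty]
        congr 1
        · linear_combination -hprod
        · congr 1
          · linear_combination -hsum
          · congr 1
            ring

end field

end Fermat.Agent.S58lib.Par
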