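/-
S58lib / Par / PolyHeight  (helper1)

**The exact polynomial height on projective vectors.**  `k` a field, `L` a field containing
`k[X]` (e.g. `RatFunc k`, or the function field of a curve over `k`).  A vector `v : ι → L` is
*`k[X]`-rational* if it is an `L ˣ`-multiple of a vector with entries in `k[X]`; its height
`hgt k v` is the least possible maximal degree of such a polynomial representative.  It is
attained exactly by the primitive representatives (`hgt_eq_maxDeg`).

Main results: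
* `hgt_smul` : scaling invariance;
* `hgt_sym2` : `hgt (p₀q₀, p₀q₁ + p₁q₀, p₁q₁) = hgt p + hgt q` (Gauß' lemma, exact);
* `hgt_addSubMap` : `hgt (addSubMap v) = 2 * hgt v` **exactly** (`W` elliptic over `k`);
* `hgt_div_one` : `hgt (a / b, 1) = max (deg a) (deg b)` for coprime `a b`.
-/
import Mathlib
import Fermat.Agent.S58lib.Par.AddSub

set_option autoImplicit false
set_option linter.unusedSectionVars false

namespace Fermat.Agent.S58lib.Par

open Polynomial

section poly

variable {k : Type*} [Field k] {ι : Type*} [Fintype ι]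

/-- The maximal degree of the entries of a polynomial vector. -/
noncomputable def maxDeg (w : ι → k[X]) : ℕ := Finset.univ.sup fun i => (w i).natDegree

lemma natDegree_le_maxDeg (w : ι → k[X]) (i : ι) : (w i).natDegree ≤ maxDeg w :=
  Finset.le_sup (f := fun i => (w i).natDegree) (Finset.mem_univ i)

lemma maxDeg_le_iff {w : ι → k[X]} {n : ℕ} : maxDeg w ≤ n ↔ ∀ i, (w i).natDegree ≤ n := by
  simp [maxDeg, Finset.sup_le_iff]

/-- The vector of coefficients in degree `n`. -/
noncomputable def lv (n : ℕ) (w : ι → k[X]) : ι → k := fun i => (w i).coeff n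

lemma lv_maxDeg_ne_zero {w : ι → k[X]} (hw : w ≠ 0) : lv (maxDeg w) w ≠ 0 := by
  obtain ⟨j, hj⟩ := Function.ne_iff.mp hw
  rcases Nat.eq_zero_or_pos (maxDeg w) with h0 | hpos
  · intro h
    have hdeg : (w j).natDegree = 0 := Nat.le_zero.mp (h0 ▸ natDegree_le_maxDeg w j)
    have hc : (w j).coeff 0 = 0 := by
      have := congrFun h j
      simpa [lv, h0] using this
    apply hj
    rw [eq_C_of_natDegree_eq_zero hdeg, hc]
    simp
  · have hne : (Finset.univ : Finset ι).Nonempty := ⟨j, Finset.mem_univ j⟩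
    obtain ⟨i, -, hi⟩ := Finset.exists_mem_eq_sup Finset.univ hne fun i => (w i).natDegree
    intro h
    have hc : (w i).coeff (maxDeg w) = 0 := congrFun h i
    have hi' : maxDeg w = (w i).natDegree := hi
    rw [hi'] at hc
    have hwi : w i = 0 := leadingCoeff_eq_zero.mp hc
    rw [hwi, natDegree_zero] at hi'
    omega

lemma maxDeg_eq_of_lv_ne_zero {w : ι → k[X]} {n : ℕ} (hle : maxDeg w ≤ n) (h : lv n w ≠ 0) :
    maxDeg w = n := by
  obtain ⟨i, hi⟩ := Function.ne_iff.mp h
  exact le_antisymm hle ((le_natDegree_of_ne_zero hi).trans (natDegree_le_maxDeg w i))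

/-- A polynomial vector is primitive if its entries generate the unit ideal. -/
def IsPrim (w : ι → k[X]) : Prop := Ideal.span (Set.range w) = ⊤

lemma IsPrim.exists_bezout {w : ι → k[X]} (h : IsPrim w) : ∃ a : ι → k[X], ∑ i, a i * w i = 1 := by
  have : (1 : k[X]) ∈ Ideal.span (Set.range w) := by rw [h]; trivial
  exact Ideal.mem_span_range_iff_exists_fun.mp this

lemma isPrim_of_bezout {w : ι → k[X]} (a : ι → k[X]) (h : ∑ i, a i * w i = 1) : IsPrim w := by
  rw [IsPrim, Ideal.eq_top_iff_one]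
  exact Ideal.mem_span_range_iff_exists_fun.mpr ⟨a, h⟩

/-- Every nonzero polynomial vector is a polynomial multiple of a primitive one. -/
lemma exists_isPrim_mul {w : ι → k[X]} (hw : w ≠ 0) :
    ∃ (g : k[X]) (w' : ι → k[X]), g ≠ 0 ∧ IsPrim w' ∧ ∀ i, w i = g * w' i := by
  obtain ⟨g, hg⟩ : ∃ g, Ideal.span (Set.range w) = Ideal.span {g} :=
    ⟨_, (Ideal.span_singleton_generator _).symm⟩
  have hmem : ∀ i, ∃ u, w i = g * u := fun i => by
    have : w i ∈ Ideal.span {g} := hg ▸ Ideal.subset_span (Set.mem_range_self i)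
    obtain ⟨u, hu⟩ := Ideal.mem_span_singleton'.mp this
    exact ⟨u, by rw [← hu, mul_comm]⟩
  choose w' hw' using hmem
  have hg0 : g ≠ 0 := by
    rintro rfl
    apply hw
    funext i
    rw [hw' i]
    simp
  refine ⟨g, w', hg0, ?_, hw'⟩
  have hgm : g ∈ Ideal.span (Set.range w) := hg ▸ Ideal.mem_span_singleton_self g
  obtain ⟨a, ha⟩ := Ideal.mem_span_range_iff_exists_fun.mp hgm
  apply isPrim_of_bezout a
  apply mul_left_cancel₀ hg0
  rw [Finset.mul_sum, mul_one]
  conv_rhs => rw [← ha]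
  refine Finset.sum_congr rfl fun i _ => ?_
  rw [hw' i]
  ring

end poly

section hgt

variable (k : Type*) [Field k] {L : Type*} [Field L] [Algebra k[X] L] [FaithfulSMul k[X] L]
variable {ι : Type*} [Fintype ι]

/-- `w` is a polynomial representative of the projective vector `v`. -/
def IsRep (v : ι → L) (w : ι → k[X]) : Prop :=
  ∃ c : L, c ≠ 0 ∧ v = c • fun i => algebraMap k[X] L (w i)

/-- `v` is (projectively) `k[X]`-rational. -/
def IsRat (v : ι → L) : Prop := ∃ w : ι → k[X], IsRep k v w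

/-- The exact height of a projective vector: the least maximal degree of a polynomial
representative (junk value `0` if there is none). -/
noncomputable def hgt (v : ι → L) : ℕ := sInf {n | ∃ w : ι → k[X], IsRep k v w ∧ maxDeg w ≤ n}

variable {k}

lemma IsRep.smul {v : ι → L} {w : ι → k[X]} (h : IsRep k v w) {c : L} (hc : c ≠ 0) :
    IsRep k (c • v) w := by
  obtain ⟨d, hd, rfl⟩ := h
  exact ⟨c * d, mul_ne_zero hc hd, by rw [smul_smul]⟩

lemma isRep_smul_iff {v : ι → L} {w : ι → k[X]} {c : L} (hc : c ≠ 0) :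
    IsRep k (c • v) w ↔ IsRep k v w := by
  refine ⟨fun h => ?_, fun h => h.smul hc⟩
  have := h.smul (inv_ne_zero hc)
  rwa [smul_smul, inv_mul_cancel₀ hc, one_smul] at this

lemma IsRat.smul {v : ι → L} (h : IsRat k v) {c : L} (hc : c ≠ 0) : IsRat k (c • v) := by
  obtain ⟨w, hw⟩ := h
  exact ⟨w, hw.smul hc⟩

lemma hgt_smul (v : ι → L) {c : L} (hc : c ≠ 0) : hgt k (c • v) = hgt k v := by
  simp only [hgt, isRep_smul_iff hc]

lemma IsRep.ne_zero {v : ι → L} {w : ι → k[X]} (h : IsRep k v w) (hv : v ≠ 0) : w ≠ 0 := by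
  rintro rfl
  obtain ⟨c, -, rfl⟩ := h
  apply hv
  funext i
  simp

/-- The height is computed by any primitive representative. -/
theorem hgt_eq_maxDeg {v : ι → L} {w : ι → k[X]} (hrep : IsRep k v w) (hprim : IsPrim w) :
    hgt k v = maxDeg w := by
  have hinj : Function.Injective (algebraMap k[X] L) := FaithfulSMul.algebraMap_injective _ _
  apply le_antisymm
  · exact Nat.sInf_le ⟨w, hrep, le_rfl⟩
  · have hne : {n | ∃ w' : ι → k[X], IsRep k v w' ∧ maxDeg w' ≤ n}.Nonempty :=
      ⟨maxDeg w, w, hrep, le_rfl⟩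
    apply le_csInf hne
    rintro n ⟨w', hrep', hn⟩
    refine le_trans ?_ hn
    obtain ⟨c, hc, hv⟩ := hrep
    obtain ⟨c', hc', hv'⟩ := hrep'
    obtain ⟨a, ha⟩ := hprim.exists_bezout
    -- `w' = g • w` with `g := ∑ a i * w' i`
    have hrel : ∀ i, algebraMap k[X] L (w' i) = (c'⁻¹ * c) * algebraMap k[X] L (w i) := fun i => by
      have h1 := congrFun hv i
      have h2 := congrFun hv' i
      simp only [Pi.smul_apply, smul_eq_mul] at h1 h2
      rw [mul_assoc, ← h1, h2, ← mul_assoc, inv_mul_cancel₀ hc', one_mul]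
    set g : k[X] := ∑ i, a i * w' i with hg
    have hgr : algebraMap k[X] L g = c'⁻¹ * c := by
      rw [hg, map_sum]
      simp only [map_mul, hrel]
      have : ∀ i, algebraMap k[X] L (a i) * (c'⁻¹ * c * algebraMap k[X] L (w i)) =
          (c'⁻¹ * c) * algebraMap k[X] L (a i * w i) := fun i => by rw [map_mul]; ring
      simp only [this]
      rw [← Finset.mul_sum, ← map_sum, ha, map_one, mul_one]
    have hg0 : g ≠ 0 := by
      intro h0
      rw [h0, map_zero] at hgr
      exact mul_ne_zero (inv_ne_zero hc') hc hgr.symm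
    have hw' : ∀ i, w' i = g * w i := fun i => by
      apply hinj
      rw [map_mul, hgr, hrel]
    rw [maxDeg_le_iff]
    intro i
    by_cases hwi : w i = 0
    · rw [hwi, natDegree_zero]; exact Nat.zero_le _
    · calc (w i).natDegree ≤ g.natDegree + (w i).natDegree := Nat.le_add_left _ _
        _ = (w' i).natDegree := by rw [hw' i, natDegree_mul hg0 hwi]
        _ ≤ maxDeg w' := natDegree_le_maxDeg w' i

/-- A nonzero rational vector has a primitive representative. -/
lemma IsRat.exists_isPrim {v : ι → L} (h : IsRat k v) (hv : v ≠ 0) :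
    ∃ w : ι → k[X], IsRep k v w ∧ IsPrim w := by
  have hinj : Function.Injective (algebraMap k[X] L) := FaithfulSMul.algebraMap_injective _ _
  obtain ⟨w, hw⟩ := h
  obtain ⟨g, w', hg0, hprim, hw'⟩ := exists_isPrim_mul (hw.ne_zero hv)
  obtain ⟨c, hc, rfl⟩ := hw
  refine ⟨w', ⟨c * algebraMap k[X] L g, mul_ne_zero hc ?_, ?_⟩, hprim⟩
  · rwa [Ne, map_eq_zero_iff _ hinj]
  · funext i
    simp only [Pi.smul_apply, smul_eq_mul, hw' i, map_mul]
    ring

end hgt

section sym2

variable {R : Type*} [CommRing R]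

/-- The symmetric square map on coordinate vectors of `ℙ¹`:
`(p₀ : p₁), (q₀ : q₁) ↦ (p₀ q₀ : p₀ q₁ + p₁ q₀ : p₁ q₁)`. -/
def sym2 (p q : Fin 2 → R) : Fin 3 → R := ![p 0 * q 0, p 0 * q 1 + p 1 * q 0, p 1 * q 1]

lemma sym2_smul (c d : R) (p q : Fin 2 → R) : sym2 (c • p) (d • q) = (c * d) • sym2 p q := by
  funext i
  fin_cases i <;> simp [sym2] <;> ring

lemma sym2_map {S : Type*} [CommRing S] (f : R →+* S) (p q : Fin 2 → R) :
    sym2 (fun i => f (p i)) (fun i => f (q i)) = fun i => f (sym2 p q i) := by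
  funext i
  fin_cases i <;> simp [sym2]

lemma sym2_ne_zero [IsDomain R] {p q : Fin 2 → R} (hp : p ≠ 0) (hq : q ≠ 0) : sym2 p q ≠ 0 := by
  intro h
  have h0 : p 0 * q 0 = 0 := by simpa [sym2] using congrFun h 0
  have h1 : p 0 * q 1 + p 1 * q 0 = 0 := by simpa [sym2] using congrFun h 1
  have h2 : p 1 * q 1 = 0 := by simpa [sym2] using congrFun h 2
  rcases mul_eq_zero.mp h0 with hp0 | hq0
  · have hp1 : p 1 ≠ 0 := fun hp1 => hp (by funext i; fin_cases i <;> simp [hp0, hp1])
    have hq1 : q 1 = 0 := (mul_eq_zero.mp h2).resolve_left hp1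
    rw [hp0, zero_mul, zero_add] at h1
    have hq0 : q 0 = 0 := (mul_eq_zero.mp h1).resolve_left hp1
    exact hq (by funext i; fin_cases i <;> simp [hq0, hq1])
  · have hq1 : q 1 ≠ 0 := fun hq1 => hq (by funext i; fin_cases i <;> simp [hq0, hq1])
    have hp1 : p 1 = 0 := (mul_eq_zero.mp h2).resolve_right hq1
    rw [hq0, mul_zero, add_zero] at h1
    have hp0 : p 0 = 0 := (mul_eq_zero.mp h1).resolve_right hq1
    exact hp (by funext i; fin_cases i <;> simp [hp0, hp1])

lemma sym2x_eq_sym2 {W' : WeierstrassCurve.Affine R} (P Q : W'.Point) :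
    P.sym2x Q = sym2 P.xRep Q.xRep := rfl

end sym2

section sym2poly

variable {k : Type*} [Field k]

lemma isPrim_sym2 {p q : Fin 2 → k[X]} (hp : IsPrim p) (hq : IsPrim q) : IsPrim (sym2 p q) := by
  by_contra hne
  obtain ⟨M, hM, hle⟩ := Ideal.exists_le_maximal _ hne
  have hmem : ∀ i, sym2 p q i ∈ M := fun i => hle (Ideal.subset_span (Set.mem_range_self i))
  have h0 : p 0 * q 0 ∈ M := by simpa [sym2] using hmem 0
  have h1 : p 0 * q 1 + p 1 * q 0 ∈ M := by simpa [sym2] using hmem 1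
  have h2 : p 1 * q 1 ∈ M := by simpa [sym2] using hmem 2
  have hprime := hM.isPrime
  have key : ∀ r : Fin 2 → k[X], IsPrim r → ¬ (r 0 ∈ M ∧ r 1 ∈ M) := by
    rintro r hr ⟨hr0, hr1⟩
    apply hM.ne_top
    rw [eq_top_iff, ← hr, Ideal.span_le]
    rintro _ ⟨i, rfl⟩
    fin_cases i
    · exact hr0
    · exact hr1
  rcases hprime.mem_or_mem h0 with hp0 | hq0
  · have hp1 : p 1 ∉ M := fun hp1 => key p hp ⟨hp0, hp1⟩
    have hq1 : q 1 ∈ M := (hprime.mem_or_mem h2).resolve_left hp1
    have h1' : p 1 * q 0 ∈ M := by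
      have := M.sub_mem h1 (M.mul_mem_right (q 1) hp0)
      simpa using this
    have hq0 : q 0 ∈ M := (hprime.mem_or_mem h1').resolve_left hp1
    exact key q hq ⟨hq0, hq1⟩
  · have hq1 : q 1 ∉ M := fun hq1 => key q hq ⟨hq0, hq1⟩
    have hp1 : p 1 ∈ M := (hprime.mem_or_mem h2).resolve_right hq1
    have h1' : p 0 * q 1 ∈ M := by
      have := M.sub_mem h1 (M.mul_mem_left (p 1) hq0)
      simpa using this
    have hp0 : p 0 ∈ M := (hprime.mem_or_mem h1').resolve_right hq1
    exact key p hp ⟨hp0, hp1⟩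

lemma maxDeg_sym2 {p q : Fin 2 → k[X]} (hp : p ≠ 0) (hq : q ≠ 0) :
    maxDeg (sym2 p q) = maxDeg p + maxDeg q := by
  have hp' := natDegree_le_maxDeg p
  have hq' := natDegree_le_maxDeg q
  have hle : maxDeg (sym2 p q) ≤ maxDeg p + maxDeg q := by
    rw [maxDeg_le_iff]
    intro i
    have hp0 := hp' 0
    have hp1 := hp' 1
    have hq0 := hq' 0
    have hq1 := hq' 1
    fin_cases i <;> simp only [sym2, Fin.zero_eta, Fin.mk_one, Fin.reduceFinMk,
      Matrix.cons_val_zero, Matrix.cons_val_one, Matrix.cons_val] <;> compute_degree <;> omega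
  apply maxDeg_eq_of_lv_ne_zero hle
  have hlv : lv (maxDeg p + maxDeg q) (sym2 p q) = sym2 (lv (maxDeg p) p) (lv (maxDeg q) q) := by
    funext i
    fin_cases i <;>
      simp [lv, sym2, coeff_mul_add_eq_of_natDegree_le (hp' _) (hq' _)]
  rw [hlv]
  exact sym2_ne_zero (lv_maxDeg_ne_zero hp) (lv_maxDeg_ne_zero hq)

end sym2poly

section hgt2

variable {k : Type*} [Field k] {L : Type*} [Field L] [Algebra k[X] L] [FaithfulSMul k[X] L]

/-- **Gauß' lemma, exact form**: the height of the symmetric square is the sum of the heights. -/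
theorem hgt_sym2 {p q : Fin 2 → L} (hp : p ≠ 0) (hq : q ≠ 0) (hpr : IsRat k p) (hqr : IsRat k q) :
    IsRat k (sym2 p q) ∧ hgt k (sym2 p q) = hgt k p + hgt k q := by
  obtain ⟨wp, hwp, hpp⟩ := hpr.exists_isPrim hp
  obtain ⟨wq, hwq, hpq⟩ := hqr.exists_isPrim hq
  have hrep : IsRep k (sym2 p q) (sym2 wp wq) := by
    obtain ⟨c, hc, rfl⟩ := hwp
    obtain ⟨d, hd, rfl⟩ := hwq
    refine ⟨c * d, mul_ne_zero hc hd, ?_⟩
    rw [sym2_smul, sym2_map]
  refine ⟨⟨_, hrep⟩, ?_⟩
  rw [hgt_eq_maxDeg hrep (isPrim_sym2 hpp hpq), hgt_eq_maxDeg hwp hpp, hgt_eq_maxDeg hwq hpq,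
    maxDeg_sym2 (hwp.ne_zero hp) (hwq.ne_zero hq)]

end hgt2

section addSubPoly

open WeierstrassCurve

variable {k : Type*} [Field k] (W : WeierstrassCurve k)

/-- The addition-and-subtraction map on polynomial vectors. -/
noncomputable def asPoly (w : Fin 3 → k[X]) : Fin 3 → k[X] :=
  fun i => MvPolynomial.eval w ((W.map (C : k →+* k[X])).addSubMap i)

lemma asPoly_eq (w : Fin 3 → k[X]) :
    asPoly W w =
      ![w 0 ^ 2 - C W.b₄ * w 0 * w 2 - C W.b₆ * w 1 * w 2 - C W.b₈ * w 2 ^ 2,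
        2 * w 1 * w 0 + C W.b₂ * w 0 * w 2 + C W.b₄ * w 1 * w 2 + C W.b₆ * w 2 ^ 2,
        w 1 ^ 2 - 4 * w 0 * w 2] := by
  unfold asPoly
  rw [addSubMap_eval]
  simp only [map_b₂, map_b₄, map_b₆, map_b₈]

lemma maxDeg_asPoly_le (w : Fin 3 → k[X]) : maxDeg (asPoly W w) ≤ maxDeg w + maxDeg w := by
  rw [maxDeg_le_iff]
  intro i
  have h0 := natDegree_le_maxDeg w 0
  have h1 := natDegree_le_maxDeg w 1
  have h2 := natDegree_le_maxDeg w 2
  rw [asPoly_eq]
  fin_cases i <;> simp only [Fin.zero_eta, Fin.mk_one, Fin.reduceFinMk,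
      Matrix.cons_val_zero, Matrix.cons_val_one, Matrix.cons_val] <;> compute_degree <;> omega

lemma lv_asPoly (w : Fin 3 → k[X]) :
    lv (maxDeg w + maxDeg w) (asPoly W w) =
      fun i => MvPolynomial.eval (lv (maxDeg w) w) (W.addSubMap i) := by
  have h := natDegree_le_maxDeg w
  have hmul : ∀ i j, (w i * w j).coeff (maxDeg w + maxDeg w) =
      (w i).coeff (maxDeg w) * (w j).coeff (maxDeg w) := fun i j =>
    coeff_mul_add_eq_of_natDegree_le (h i) (h j)
  rw [addSubMap_eval, asPoly_eq]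
  funext i
  fin_cases i <;>
    simp only [lv, Fin.zero_eta, Fin.mk_one, Fin.reduceFinMk, Matrix.cons_val_zero,
      Matrix.cons_val_one, Matrix.cons_val, sq, mul_assoc, coeff_sub, coeff_add, coeff_C_mul,
      coeff_ofNat_mul, hmul]

variable [W.IsElliptic]

lemma maxDeg_asPoly {w : Fin 3 → k[X]} (hw : w ≠ 0) : maxDeg (asPoly W w) = 2 * maxDeg w := by
  rw [two_mul]
  apply maxDeg_eq_of_lv_ne_zero (maxDeg_asPoly_le W w)
  rw [lv_asPoly]
  exact W.addSubMap_ne_zero (lv_maxDeg_ne_zero hw)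

lemma isPrim_asPoly {w : Fin 3 → k[X]} (hw : IsPrim w) : IsPrim (asPoly W w) := by
  rw [IsPrim, eq_top_iff]
  have h4 := Ideal.span_pow_eq_top (Set.range w) hw 4
  rw [← h4, Ideal.span_le]
  rintro _ ⟨_, ⟨i, rfl⟩, rfl⟩
  have := (W.map (C : k →+* k[X])).addSubMapCoeff_condition w i
  simp only [SetLike.mem_coe]
  rw [← this]
  exact Ideal.sum_mem _ fun j _ => Ideal.mul_mem_left _ _ (Ideal.subset_span ⟨j, rfl⟩)

variable {L : Type*} [Field L] [Algebra k[X] L] [FaithfulSMul k[X] L] [Algebra k L]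
  [IsScalarTower k k[X] L]

lemma addSubMap_smul_algebraMap (c : L) (w : Fin 3 → k[X]) :
    (fun i => MvPolynomial.eval (c • fun j => algebraMap k[X] L (w j))
        ((W.map (algebraMap k L)).addSubMap i)) =
      (c ^ 2) • fun i => algebraMap k[X] L (asPoly W w i) := by
  have hb : ∀ b : k, algebraMap k L b = algebraMap k[X] L (C b) := fun b => by
    rw [IsScalarTower.algebraMap_apply k k[X] L, Polynomial.algebraMap_eq]
  rw [addSubMap_eval, asPoly_eq]
  funext i
  fin_cases i <;>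
    simp only [map_b₂, map_b₄, map_b₆, map_b₈, hb, Fin.zero_eta, Fin.mk_one, Fin.reduceFinMk,
      Matrix.cons_val_zero, Matrix.cons_val_one, Matrix.cons_val, Pi.smul_apply, smul_eq_mul,
      map_sub, map_add, map_mul, map_pow, map_ofNat] <;> ring

/-- **The addition-and-subtraction map exactly doubles the height.** -/
theorem hgt_addSubMap {v : Fin 3 → L} (hv : v ≠ 0) (hr : IsRat k v) :
    IsRat k (fun i => MvPolynomial.eval v ((W.map (algebraMap k L)).addSubMap i)) ∧
      hgt k (fun i => MvPolynomial.eval v ((W.map (algebraMap k L)).addSubMap i)) =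
        2 * hgt k v := by
  obtain ⟨w, hw, hprim⟩ := hr.exists_isPrim hv
  have hw0 := hw.ne_zero hv
  obtain ⟨c, hc, rfl⟩ := hw
  have hrep : IsRep k (fun i => MvPolynomial.eval (c • fun j => algebraMap k[X] L (w j))
      ((W.map (algebraMap k L)).addSubMap i)) (asPoly W w) :=
    ⟨c ^ 2, pow_ne_zero 2 hc, addSubMap_smul_algebraMap W c w⟩
  refine ⟨⟨_, hrep⟩, ?_⟩
  rw [hgt_eq_maxDeg hrep (isPrim_asPoly W hprim),
    hgt_eq_maxDeg ⟨c, hc, rfl⟩ hprim, maxDeg_asPoly W hw0]

end addSubPoly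

section fin2

variable {k : Type*} [Field k] {L : Type*} [Field L] [Algebra k[X] L] [FaithfulSMul k[X] L]

lemma maxDeg_fin2 (a b : k[X]) : maxDeg ![a, b] = max a.natDegree b.natDegree := by
  apply le_antisymm
  · rw [maxDeg_le_iff]
    intro i
    fin_cases i <;> simp
  · exact max_le (natDegree_le_maxDeg ![a, b] 0) (natDegree_le_maxDeg ![a, b] 1)

lemma isPrim_fin2 {a b : k[X]} (hab : IsCoprime a b) : IsPrim ![a, b] := by
  obtain ⟨u, v, huv⟩ := hab
  exact isPrim_of_bezout ![u, v] (by simpa [Fin.sum_univ_two] using huv)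

lemma isRep_div_one (a : k[X]) {b : k[X]} (hb : b ≠ 0) :
    IsRep k (![algebraMap k[X] L a / algebraMap k[X] L b, 1] : Fin 2 → L) ![a, b] := by
  have hinj : Function.Injective (algebraMap k[X] L) := FaithfulSMul.algebraMap_injective _ _
  have hb' : algebraMap k[X] L b ≠ 0 := by rwa [Ne, map_eq_zero_iff _ hinj]
  refine ⟨(algebraMap k[X] L b)⁻¹, inv_ne_zero hb', ?_⟩
  funext i
  fin_cases i
  · simp [div_eq_inv_mul]
  · simp [inv_mul_cancel₀ hb']

/-- The height of `(a / b : 1)` for coprime polynomials `a`, `b`. -/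
theorem hgt_div_one {a b : k[X]} (hb : b ≠ 0) (hab : IsCoprime a b) :
    hgt k (![algebraMap k[X] L a / algebraMap k[X] L b, 1] : Fin 2 → L) =
      max a.natDegree b.natDegree := by
  rw [hgt_eq_maxDeg (isRep_div_one a hb) (isPrim_fin2 hab), maxDeg_fin2]

lemma isRep_one_zero : IsRep k (![1, 0] : Fin 2 → L) ![1, 0] := by
  refine ⟨1, one_ne_zero, ?_⟩
  funext i
  fin_cases i <;> simp

/-- The height of `(1 : 0)`. -/
theorem hgt_one_zero : hgt k (![1, 0] : Fin 2 → L) = 0 := by
  rw [hgt_eq_maxDeg isRep_one_zero (isPrim_fin2 isCoprime_one_left), maxDeg_fin2]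
  simp

/-- A rational vector `(x : 1)` has `x` in the fraction field of `k[X]`. -/
lemma IsRat.exists_div {x : L} (h : IsRat k (![x, 1] : Fin 2 → L)) :
    ∃ a b : k[X], b ≠ 0 ∧ IsCoprime a b ∧ x = algebraMap k[X] L a / algebraMap k[X] L b := by
  have hinj : Function.Injective (algebraMap k[X] L) := FaithfulSMul.algebraMap_injective _ _
  have hne : (![x, 1] : Fin 2 → L) ≠ 0 := fun h0 => by simpa using congrFun h0 1
  obtain ⟨w, ⟨c, hc, hw⟩, hprim⟩ := h.exists_isPrim hne
  have h0 : x = c * algebraMap k[X] L (w 0) := by simpa using congrFun hw 0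
  have h1 : 1 = c * algebraMap k[X] L (w 1) := by simpa using congrFun hw 1
  have hw1 : algebraMap k[X] L (w 1) ≠ 0 := by
    intro h
    rw [h, mul_zero] at h1
    exact one_ne_zero h1
  refine ⟨w 0, w 1, fun h => hw1 (by rw [h, map_zero]), ?_, ?_⟩
  · obtain ⟨a, ha⟩ := hprim.exists_bezout
    exact ⟨a 0, a 1, by simpa [Fin.sum_univ_two] using ha⟩
  · rw [h0, eq_div_iff hw1]
    have : c = (algebraMap k[X] L (w 1))⁻¹ := eq_inv_of_mul_eq_one_left h1.symm
    rw [this]
    field_simp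

end fin2

end Fermat.Agent.S58lib.Par
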