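/-
S58lib / Par / Law  (helper1)

**The exact parallelogram law for the degree of the x-coordinate.**  `k` a field, `W` an
elliptic curve over `k`, `L` a field containing `k[X]` (compatibly with `k`).  For a point `P`
of `W` over `L`, `xdeg P : ℕ` is the degree (height) of its x-coordinate as an element of
`k(X) ⊆ L` (`0` at the origin); `XRat P` says that the x-coordinate does lie in `k(X)`.

* `xdeg_add_add_xdeg_sub` : if `P`, `Q`, `P + Q`, `P - Q` are all `XRat` then
  `xdeg (P + Q) + xdeg (P - Q) = 2 * xdeg P + 2 * xdeg Q`, **exactly**.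
* `xdeg_zsmul_add_zsmul` : on a subgroup all of whose elements are `XRat`, `xdeg` is a
  quadratic form.
-/
import Mathlib
import Fermat.Agent.S58lib.Par.PolyHeight

set_option autoImplicit false
set_option linter.unusedSectionVars false

namespace Fermat.Agent.S58lib.Par

open Polynomial WeierstrassCurve WeierstrassCurve.Affine

section quad

variable {A : Type*} [AddCommGroup A] (d : A → ℤ)

/-- The polarisation of a function satisfying the parallelogram law. -/
def parB (P Q : A) : ℤ := d (P + Q) - d P - d Q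

variable {d}

lemma par_zero (hd : ∀ P Q, d (P + Q) + d (P - Q) = 2 * d P + 2 * d Q) : d 0 = 0 := by
  have := hd 0 0
  simp only [add_zero, sub_zero] at this
  linarith

lemma par_neg (hd : ∀ P Q, d (P + Q) + d (P - Q) = 2 * d P + 2 * d Q) (P : A) :
    d (-P) = d P := by
  have := hd 0 P
  simp only [zero_add, zero_sub, par_zero hd] at this
  linarith

lemma parB_comm (P Q : A) : parB d P Q = parB d Q P := by
  unfold parB
  rw [add_comm P Q]
  ring

lemma parB_add_left (hd : ∀ P Q, d (P + Q) + d (P - Q) = 2 * d P + 2 * d Q) (P R Q : A) :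
    parB d (P + R) Q = parB d P Q + parB d R Q := by
  have e1 := hd (P + R) Q
  have e2 := hd P (R - Q)
  have e3 := hd (P + Q) R
  have e4 := hd R Q
  have a1 : P + (R - Q) = P + R - Q := by abel
  have a2 : P - (R - Q) = P + Q - R := by abel
  have a3 : P + Q + R = P + R + Q := by abel
  rw [a1, a2] at e2
  rw [a3] at e3
  unfold parB
  linarith

/-- The polarisation as a biadditive map. -/
def parBHom (hd : ∀ P Q, d (P + Q) + d (P - Q) = 2 * d P + 2 * d Q) (Q : A) : A →+ ℤ :=
  AddMonoidHom.mk' (fun P => parB d P Q) fun P R => parB_add_left hd P R Q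

lemma parB_zsmul_left (hd : ∀ P Q, d (P + Q) + d (P - Q) = 2 * d P + 2 * d Q) (r : ℤ) (P Q : A) :
    parB d (r • P) Q = r * parB d P Q := by
  have := map_zsmul (parBHom hd Q) r P
  simpa [parBHom] using this

lemma parB_zsmul_right (hd : ∀ P Q, d (P + Q) + d (P - Q) = 2 * d P + 2 * d Q) (s : ℤ) (P Q : A) :
    parB d P (s • Q) = s * parB d P Q := by
  rw [parB_comm, parB_zsmul_left hd, parB_comm]

lemma parB_self (hd : ∀ P Q, d (P + Q) + d (P - Q) = 2 * d P + 2 * d Q) (P : A) :
    parB d P P = 2 * d P := by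
  have := hd P P
  rw [sub_self, par_zero hd] at this
  unfold parB
  linarith

lemma par_zsmul (hd : ∀ P Q, d (P + Q) + d (P - Q) = 2 * d P + 2 * d Q) (r : ℤ) (P : A) :
    d (r • P) = r ^ 2 * d P := by
  have h1 := parB_self hd (r • P)
  rw [parB_zsmul_left hd, parB_zsmul_right hd, parB_self hd] at h1
  linarith

/-- A function satisfying the parallelogram law is a quadratic form. -/
theorem par_zsmul_add_zsmul (hd : ∀ P Q, d (P + Q) + d (P - Q) = 2 * d P + 2 * d Q)
    (r s : ℤ) (P Q : A) :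
    d (r • P + s • Q) = r ^ 2 * d P + r * s * (d (P + Q) - d P - d Q) + s ^ 2 * d Q := by
  have h1 : parB d (r • P) (s • Q) = r * (s * parB d P Q) := by
    rw [parB_zsmul_left hd, parB_zsmul_right hd]
  have h2 : d (r • P + s • Q) = parB d (r • P) (s • Q) + d (r • P) + d (s • Q) := by
    unfold parB
    ring
  rw [h2, h1, par_zsmul hd, par_zsmul hd]
  unfold parB
  ring

end quad

section law

variable {k : Type*} [Field k] (W : WeierstrassCurve k)
variable {L : Type*} [Field L] [Algebra k[X] L] [FaithfulSMul k[X] L] [Algebra k L]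
  [IsScalarTower k k[X] L]

/-- The x-coordinate of `P` lies in `k(X) ⊆ L` (vacuous at the origin). -/
def XRat (P : (W⁄L).Point) : Prop := IsRat k P.xRep

/-- The degree of the x-coordinate of `P` as a rational function (`0` at the origin). -/
noncomputable def xdeg (P : (W⁄L).Point) : ℕ := hgt k P.xRep

variable {W}

lemma xRat_zero : XRat W (0 : (W⁄L).Point) := ⟨_, isRep_one_zero⟩

@[simp]
lemma xdeg_zero : xdeg W (0 : (W⁄L).Point) = 0 := hgt_one_zero

lemma xRat_neg {P : (W⁄L).Point} (h : XRat W P) : XRat W (-P) := by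
  unfold XRat at h ⊢
  rwa [Affine.Point.xRep_neg]

@[simp]
lemma xdeg_neg (P : (W⁄L).Point) : xdeg W (-P) = xdeg W P := by
  unfold xdeg
  rw [Affine.Point.xRep_neg]

lemma xRat_some_iff {x y : L} (h : (W⁄L).Nonsingular x y) :
    XRat W (Affine.Point.some x y h) ↔
      ∃ a b : k[X], b ≠ 0 ∧ IsCoprime a b ∧ x = algebraMap k[X] L a / algebraMap k[X] L b := by
  constructor
  · intro hr
    exact IsRat.exists_div hr
  · rintro ⟨a, b, hb, -, rfl⟩
    exact ⟨_, isRep_div_one a hb⟩

lemma xdeg_some {x y : L} (h : (W⁄L).Nonsingular x y) {a b : k[X]} (hb : b ≠ 0)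
    (hab : IsCoprime a b) (hx : x = algebraMap k[X] L a / algebraMap k[X] L b) :
    xdeg W (Affine.Point.some x y h) = max a.natDegree b.natDegree := by
  subst hx
  exact hgt_div_one hb hab

variable [W.IsElliptic] [DecidableEq L]

/-- **The exact parallelogram law.** -/
theorem xdeg_add_add_xdeg_sub {P Q : (W⁄L).Point} (hP : XRat W P) (hQ : XRat W Q)
    (hs : XRat W (P + Q)) (hd : XRat W (P - Q)) :
    xdeg W (P + Q) + xdeg W (P - Q) = 2 * xdeg W P + 2 * xdeg W Q := by
  obtain ⟨hr1, h1⟩ := hgt_sym2 (Affine.Point.xRep_ne_zero P) (Affine.Point.xRep_ne_zero Q) hP hQ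
  obtain ⟨-, h2⟩ := hgt_sym2 (Affine.Point.xRep_ne_zero (P + Q))
    (Affine.Point.xRep_ne_zero (P - Q)) hs hd
  rw [← sym2x_eq_sym2] at hr1 h1 h2
  obtain ⟨-, h3⟩ := hgt_addSubMap W (Affine.Point.sym2x_ne_zero P Q) hr1
  obtain ⟨c, hc, h4⟩ := addSubMap_sym2x P Q
  have h5 : (fun i => MvPolynomial.eval (P.sym2x Q) ((W.map (algebraMap k L)).addSubMap i)) =
      c • (P + Q).sym2x (P - Q) := h4
  rw [h5, hgt_smul _ hc, h2, h1] at h3
  unfold xdeg
  omega

/-- **`xdeg` is a quadratic form** on any subgroup all of whose points have x-coordinate in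
`k(X)`. -/
theorem xdeg_zsmul_add_zsmul (H : AddSubgroup (W⁄L).Point) (hH : ∀ P ∈ H, XRat W P)
    {P Q : (W⁄L).Point} (hP : P ∈ H) (hQ : Q ∈ H) (r s : ℤ) :
    (xdeg W (r • P + s • Q) : ℤ) =
      r ^ 2 * xdeg W P + r * s * ((xdeg W (P + Q) : ℤ) - xdeg W P - xdeg W Q) +
        s ^ 2 * xdeg W Q := by
  have hd : ∀ A B : H, (fun R : H => (xdeg W (R : (W⁄L).Point) : ℤ)) (A + B) +
      (fun R : H => (xdeg W (R : (W⁄L).Point) : ℤ)) (A - B) =
      2 * (fun R : H => (xdeg W (R : (W⁄L).Point) : ℤ)) A +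
        2 * (fun R : H => (xdeg W (R : (W⁄L).Point) : ℤ)) B := by
    intro A B
    have := xdeg_add_add_xdeg_sub (hH _ A.2) (hH _ B.2) (hH _ (A + B).2) (hH _ (A - B).2)
    simp only [AddSubgroup.coe_add, AddSubgroup.coe_sub]
    exact_mod_cast this
  have := par_zsmul_add_zsmul (A := H) (d := fun R : H => (xdeg W (R : (W⁄L).Point) : ℤ))
    hd r s ⟨P, hP⟩ ⟨Q, hQ⟩
  simpa using this

/-- Special case: `xdeg (n • P) = n² xdeg P`. -/
theorem xdeg_zsmul (H : AddSubgroup (W⁄L).Point) (hH : ∀ P ∈ H, XRat W P)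
    {P : (W⁄L).Point} (hP : P ∈ H) (n : ℤ) :
    (xdeg W (n • P) : ℤ) = n ^ 2 * xdeg W P := by
  have := xdeg_zsmul_add_zsmul H hH hP (zero_mem H) n 0
  simpa using this

end law

end Fermat.Agent.S58lib.Par
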