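/-
S58lib / Par / Compose  (helper1)

**Degree rules for the exact height**, in the language of `PolyHeight` / `Law`:

* `hgt_hom2` : a rational map `ℙ¹ → ℙ¹` given by coprime polynomials `A`, `B` with
  `n = max (deg A) (deg B)` multiplies heights by `n` exactly (`deg (f ∘ g) = deg f * deg g`);
  affine form `hgt_aeval_div`, point form `xdeg_of_x_eq_aeval_div`;
* `hgt_pow` : `hgt (pᵢ ^ m) = m * hgt p` (Frobenius twist), point form `xdeg_of_x_eq_pow`;
* `hgt_eq_zero_iff`, `xdeg_eq_zero_iff` : height `0` means constant.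
-/
import Mathlib
import Fermat.Agent.S58lib.Par.Law

set_option autoImplicit false
set_option linter.unusedSectionVars false

namespace Fermat.Agent.S58lib.Par

open Polynomial

section hom2

variable {k : Type*} [Field k]

/-- The homogenisation of `P` in degree `n`, evaluated at `(s, t)` in a `k`-algebra:
`∑_{i ≤ n} Pᵢ sⁱ tⁿ⁻ⁱ`. -/
noncomputable def hom2 {R : Type*} [CommRing R] [Algebra k R] (n : ℕ) (P : k[X]) (s t : R) : R :=
  ∑ i ∈ Finset.range (n + 1), algebraMap k R (P.coeff i) * s ^ i * t ^ (n - i)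

variable {R : Type*} [CommRing R] [Algebra k R]

lemma hom2_mul_mul (n : ℕ) (P : k[X]) (c s t : R) :
    hom2 n P (c * s) (c * t) = c ^ n * hom2 n P s t := by
  unfold hom2
  rw [Finset.mul_sum]
  refine Finset.sum_congr rfl fun i hi => ?_
  have hi' : i ≤ n := Nat.lt_succ_iff.mp (Finset.mem_range.mp hi)
  have : c ^ n = c ^ i * c ^ (n - i) := by rw [← pow_add, Nat.add_sub_cancel' hi']
  rw [this, mul_pow, mul_pow]
  ring

lemma map_hom2 {S : Type*} [CommRing S] [Algebra k S] (f : R →ₐ[k] S) (n : ℕ) (P : k[X])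
    (s t : R) : f (hom2 n P s t) = hom2 n P (f s) (f t) := by
  unfold hom2
  rw [map_sum]
  refine Finset.sum_congr rfl fun i _ => ?_
  rw [map_mul, map_mul, map_pow, map_pow, AlgHom.commutes]

lemma hom2_zero_right (n : ℕ) (P : k[X]) (s : R) :
    hom2 n P s 0 = algebraMap k R (P.coeff n) * s ^ n := by
  unfold hom2
  rw [Finset.sum_eq_single n]
  · simp
  · intro i hi hne
    have hi' : i < n := lt_of_le_of_ne (Nat.lt_succ_iff.mp (Finset.mem_range.mp hi)) hne
    have : n - i ≠ 0 := by omega
    rw [zero_pow this, mul_zero]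
  · intro h
    exact absurd (Finset.mem_range.mpr (Nat.lt_succ_self n)) h

lemma hom2_eq_aeval {κ : Type*} [Field κ] [Algebra k κ] {n : ℕ} {P : k[X]}
    (hP : P.natDegree ≤ n) (s : κ) {t : κ} (ht : t ≠ 0) :
    hom2 n P s t = t ^ n * aeval (s / t) P := by
  rw [aeval_eq_sum_range' (Nat.lt_succ_of_le hP), Finset.mul_sum]
  unfold hom2
  refine Finset.sum_congr rfl fun i hi => ?_
  have hi' : i ≤ n := Nat.lt_succ_iff.mp (Finset.mem_range.mp hi)
  have : t ^ n = t ^ i * t ^ (n - i) := by rw [← pow_add, Nat.add_sub_cancel' hi']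
  rw [this, Algebra.smul_def, div_pow]
  field_simp

/-- Coprime polynomials with `n = max (deg A) (deg B)` have no common zero on `ℙ¹`. -/
lemma hom2_ne_zero_of_coprime {κ : Type*} [Field κ] [Algebra k κ] {A B : k[X]}
    (hAB : IsCoprime A B) {s t : κ} (hst : s ≠ 0 ∨ t ≠ 0) :
    hom2 (max A.natDegree B.natDegree) A s t ≠ 0 ∨
      hom2 (max A.natDegree B.natDegree) B s t ≠ 0 := by
  have hinj : Function.Injective (algebraMap k κ) := (algebraMap k κ).injective
  by_cases ht : t = 0
  · subst ht
    have hs : s ≠ 0 := hst.resolve_right (by simp)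
    rw [hom2_zero_right, hom2_zero_right]
    have hsn : s ^ (max A.natDegree B.natDegree) ≠ 0 := pow_ne_zero _ hs
    -- one of the two top coefficients is nonzero
    have hcoef : A.coeff (max A.natDegree B.natDegree) ≠ 0 ∨
        B.coeff (max A.natDegree B.natDegree) ≠ 0 := by
      by_cases hA : A = 0
      · right
        subst hA
        have hB : IsUnit B := isCoprime_zero_left.mp hAB
        have hdeg : B.natDegree = 0 := natDegree_eq_zero_of_isUnit hB
        simp only [natDegree_zero, hdeg, max_self]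
        intro h0
        have : B = 0 := by rw [eq_C_of_natDegree_eq_zero hdeg, h0, C_0]
        exact hB.ne_zero this
      · by_cases hB : B = 0
        · left
          subst hB
          have hA' : IsUnit A := isCoprime_zero_right.mp hAB
          have hdeg : A.natDegree = 0 := natDegree_eq_zero_of_isUnit hA'
          simp only [natDegree_zero, hdeg, max_self]
          intro h0
          have : A = 0 := by rw [eq_C_of_natDegree_eq_zero hdeg, h0, C_0]
          exact hA this
        · rcases le_total B.natDegree A.natDegree with h | h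
          · left
            rw [max_eq_left h]
            exact leadingCoeff_ne_zero.mpr hA
          · right
            rw [max_eq_right h]
            exact leadingCoeff_ne_zero.mpr hB
    rcases hcoef with h | h
    · left
      exact mul_ne_zero (by rwa [Ne, map_eq_zero_iff _ hinj]) hsn
    · right
      exact mul_ne_zero (by rwa [Ne, map_eq_zero_iff _ hinj]) hsn
  · rw [hom2_eq_aeval (le_max_left _ _) s ht, hom2_eq_aeval (le_max_right _ _) s ht]
    by_contra hcon
    push Not at hcon
    have htn : t ^ (max A.natDegree B.natDegree) ≠ 0 := pow_ne_zero _ ht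
    have h1 : aeval (s / t) A = 0 := (mul_eq_zero.mp hcon.1).resolve_left htn
    have h2 : aeval (s / t) B = 0 := (mul_eq_zero.mp hcon.2).resolve_left htn
    obtain ⟨u, v, huv⟩ := hAB
    have := congrArg (aeval (s / t)) huv
    rw [map_add, map_mul, map_mul, h1, h2, mul_zero, mul_zero, add_zero, map_one] at this
    exact zero_ne_one this

/-- The map `ℙ¹ → ℙ¹` defined by `A`, `B` on polynomial vectors. -/
noncomputable def compPoly (A B : k[X]) (w : Fin 2 → k[X]) : Fin 2 → k[X] :=
  ![hom2 (max A.natDegree B.natDegree) A (w 0) (w 1),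
    hom2 (max A.natDegree B.natDegree) B (w 0) (w 1)]

lemma isPrim_compPoly {A B : k[X]} (hAB : IsCoprime A B) {w : Fin 2 → k[X]} (hw : IsPrim w) :
    IsPrim (compPoly A B w) := by
  by_contra hne
  obtain ⟨M, hM, hle⟩ := Ideal.exists_le_maximal _ hne
  have hmem : ∀ i, compPoly A B w i ∈ M := fun i => hle (Ideal.subset_span (Set.mem_range_self i))
  let _ : Field (k[X] ⧸ M) := Ideal.Quotient.field M
  let f : k[X] →ₐ[k] (k[X] ⧸ M) := Ideal.Quotient.mkₐ k M
  have hf : ∀ a, f a = 0 ↔ a ∈ M := fun a => Ideal.Quotient.eq_zero_iff_mem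
  have h0 : hom2 (max A.natDegree B.natDegree) A (f (w 0)) (f (w 1)) = 0 := by
    rw [← map_hom2, hf]
    simpa [compPoly] using hmem 0
  have h1 : hom2 (max A.natDegree B.natDegree) B (f (w 0)) (f (w 1)) = 0 := by
    rw [← map_hom2, hf]
    simpa [compPoly] using hmem 1
  have hst : f (w 0) ≠ 0 ∨ f (w 1) ≠ 0 := by
    by_contra hcon
    push Not at hcon
    apply hM.ne_top
    rw [eq_top_iff, ← hw, Ideal.span_le]
    rintro _ ⟨i, rfl⟩
    fin_cases i
    · exact (hf _).mp hcon.1
    · exact (hf _).mp hcon.2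
  rcases hom2_ne_zero_of_coprime hAB hst with h | h
  · exact h h0
  · exact h h1

lemma natDegree_hom2_le (n : ℕ) (P : k[X]) {w : Fin 2 → k[X]} {m : ℕ}
    (h0 : (w 0).natDegree ≤ m) (h1 : (w 1).natDegree ≤ m) :
    (hom2 n P (w 0) (w 1)).natDegree ≤ n * m := by
  unfold hom2
  apply natDegree_sum_le_of_forall_le
  intro i hi
  have hi' : i ≤ n := Nat.lt_succ_iff.mp (Finset.mem_range.mp hi)
  rw [Polynomial.algebraMap_eq, mul_assoc]
  refine (natDegree_C_mul_le _ _).trans (natDegree_mul_le.trans ?_)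
  have e1 := natDegree_pow_le_of_le i h0
  have e2 := natDegree_pow_le_of_le (n - i) h1
  calc ((w 0) ^ i).natDegree + ((w 1) ^ (n - i)).natDegree ≤ i * m + (n - i) * m :=
        add_le_add e1 e2
    _ = n * m := by rw [← add_mul, Nat.add_sub_cancel' hi']

lemma coeff_hom2 (n : ℕ) (P : k[X]) {w : Fin 2 → k[X]} {m : ℕ}
    (h0 : (w 0).natDegree ≤ m) (h1 : (w 1).natDegree ≤ m) :
    (hom2 n P (w 0) (w 1)).coeff (n * m) = hom2 n P ((w 0).coeff m) ((w 1).coeff m) := by
  unfold hom2
  rw [finsetSum_coeff]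
  refine Finset.sum_congr rfl fun i hi => ?_
  have hi' : i ≤ n := Nat.lt_succ_iff.mp (Finset.mem_range.mp hi)
  have e1 := natDegree_pow_le_of_le i h0
  have e2 := natDegree_pow_le_of_le (n - i) h1
  have hnm : n * m = i * m + (n - i) * m := by rw [← add_mul, Nat.add_sub_cancel' hi']
  rw [Polynomial.algebraMap_eq, mul_assoc, coeff_C_mul, hnm,
    coeff_mul_add_eq_of_natDegree_le e1 e2, coeff_pow_of_natDegree_le h0,
    coeff_pow_of_natDegree_le h1, Algebra.algebraMap_self, RingHom.id_apply, mul_assoc]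

lemma maxDeg_compPoly {A B : k[X]} (hAB : IsCoprime A B) {w : Fin 2 → k[X]} (hw : w ≠ 0) :
    maxDeg (compPoly A B w) = max A.natDegree B.natDegree * maxDeg w := by
  have h0 := natDegree_le_maxDeg w 0
  have h1 := natDegree_le_maxDeg w 1
  have hle : maxDeg (compPoly A B w) ≤ max A.natDegree B.natDegree * maxDeg w := by
    rw [maxDeg_le_iff]
    intro i
    fin_cases i
    · simpa [compPoly] using natDegree_hom2_le _ A h0 h1
    · simpa [compPoly] using natDegree_hom2_le _ B h0 h1
  apply maxDeg_eq_of_lv_ne_zero hle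
  have hlv := lv_maxDeg_ne_zero hw
  have hst : (w 0).coeff (maxDeg w) ≠ 0 ∨ (w 1).coeff (maxDeg w) ≠ 0 := by
    by_contra hcon
    push Not at hcon
    apply hlv
    funext i
    fin_cases i
    · exact hcon.1
    · exact hcon.2
  intro hzero
  have e0 : (compPoly A B w 0).coeff (max A.natDegree B.natDegree * maxDeg w) = 0 :=
    congrFun hzero 0
  have e1 : (compPoly A B w 1).coeff (max A.natDegree B.natDegree * maxDeg w) = 0 :=
    congrFun hzero 1
  simp only [compPoly, Matrix.cons_val_zero, Matrix.cons_val_one] at e0 e1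
  rw [coeff_hom2 _ _ h0 h1] at e0 e1
  rcases hom2_ne_zero_of_coprime hAB hst with h | h
  · exact h e0
  · exact h e1

end hom2

section comp

variable {k : Type*} [Field k] {L : Type*} [Field L] [Algebra k[X] L] [FaithfulSMul k[X] L]
  [Algebra k L] [IsScalarTower k k[X] L]

/-- The map `ℙ¹ → ℙ¹` defined by `A`, `B` on coordinate vectors over `L`. -/
noncomputable def compMap (A B : k[X]) (p : Fin 2 → L) : Fin 2 → L :=
  ![hom2 (max A.natDegree B.natDegree) A (p 0) (p 1),
    hom2 (max A.natDegree B.natDegree) B (p 0) (p 1)]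

lemma compMap_smul_algebraMap (A B : k[X]) (c : L) (w : Fin 2 → k[X]) :
    compMap A B (c • fun i => algebraMap k[X] L (w i)) =
      (c ^ max A.natDegree B.natDegree) • fun i => algebraMap k[X] L (compPoly A B w i) := by
  have hf : ∀ a, algebraMap k[X] L a = IsScalarTower.toAlgHom k k[X] L a := fun a => rfl
  funext i
  fin_cases i
  · simp only [compMap, compPoly, Pi.smul_apply, smul_eq_mul, Fin.zero_eta, Matrix.cons_val_zero,
      hom2_mul_mul, hf, map_hom2]
  · simp only [compMap, compPoly, Pi.smul_apply, smul_eq_mul, Fin.mk_one, Matrix.cons_val_one,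
      Matrix.cons_val_zero, hom2_mul_mul, hf, map_hom2]

/-- **Heights multiply under composition**: a rational map of degree `n` multiplies the height
by `n`. -/
theorem hgt_compMap {A B : k[X]} (hAB : IsCoprime A B) {p : Fin 2 → L} (hp : p ≠ 0)
    (hr : IsRat k p) :
    IsRat k (compMap A B p) ∧
      hgt k (compMap A B p) = max A.natDegree B.natDegree * hgt k p := by
  obtain ⟨w, hw, hprim⟩ := hr.exists_isPrim hp
  have hw0 := hw.ne_zero hp
  obtain ⟨c, hc, rfl⟩ := hw
  have hrep : IsRep k (compMap A B (c • fun i => algebraMap k[X] L (w i))) (compPoly A B w) :=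
    ⟨_, pow_ne_zero _ hc, compMap_smul_algebraMap A B c w⟩
  refine ⟨⟨_, hrep⟩, ?_⟩
  rw [hgt_eq_maxDeg hrep (isPrim_compPoly hAB hprim), hgt_eq_maxDeg ⟨c, hc, rfl⟩ hprim,
    maxDeg_compPoly hAB hw0]

lemma compMap_one_right (A B : k[X]) (g : L) :
    compMap A B ![g, 1] = ![aeval g A, aeval g B] := by
  funext i
  fin_cases i
  · simp [compMap, hom2_eq_aeval (le_max_left A.natDegree B.natDegree) g one_ne_zero]
  · simp [compMap, hom2_eq_aeval (le_max_right A.natDegree B.natDegree) g one_ne_zero]

/-- Affine form: `deg (A(g) / B(g)) = max (deg A) (deg B) * deg g`. -/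
theorem hgt_aeval_div {A B : k[X]} (hAB : IsCoprime A B) {g : L} (hg : IsRat k ![g, 1])
    (hB : aeval g B ≠ 0) :
    IsRat k ![aeval g A / aeval g B, 1] ∧
      hgt k ![aeval g A / aeval g B, 1] = max A.natDegree B.natDegree * hgt k ![g, 1] := by
  have hne : (![g, 1] : Fin 2 → L) ≠ 0 := fun h0 => by simpa using congrFun h0 1
  obtain ⟨h1, h2⟩ := hgt_compMap hAB hne hg
  have hsm : (![aeval g A / aeval g B, 1] : Fin 2 → L) =
      (aeval g B)⁻¹ • compMap A B ![g, 1] := by
    rw [compMap_one_right]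
    funext i
    fin_cases i
    · simp [div_eq_inv_mul]
    · simp [inv_mul_cancel₀ hB]
  rw [hsm, hgt_smul _ (inv_ne_zero hB)]
  exact ⟨h1.smul (inv_ne_zero hB), h2⟩

end comp

section pow

variable {k : Type*} [Field k] {L : Type*} [Field L] [Algebra k[X] L] [FaithfulSMul k[X] L]
variable {ι : Type*} [Fintype ι]

lemma isPrim_pow {w : ι → k[X]} (hw : IsPrim w) (m : ℕ) : IsPrim fun i => w i ^ m := by
  have h := Ideal.span_pow_eq_top (Set.range w) hw m
  unfold IsPrim
  rw [← h]
  congr 1
  ext x
  simp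

lemma maxDeg_pow (w : ι → k[X]) (m : ℕ) : maxDeg (fun i => w i ^ m) = m * maxDeg w := by
  apply le_antisymm
  · rw [maxDeg_le_iff]
    intro i
    rw [natDegree_pow]
    exact Nat.mul_le_mul_left _ (natDegree_le_maxDeg w i)
  · rcases isEmpty_or_nonempty ι with hι | hι
    · simp [maxDeg]
    · obtain ⟨i, -, hi⟩ := Finset.exists_mem_eq_sup Finset.univ Finset.univ_nonempty
        fun i => (w i).natDegree
      have hi' : maxDeg w = (w i).natDegree := hi
      rw [hi', ← natDegree_pow]
      exact natDegree_le_maxDeg (fun i => w i ^ m) i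

/-- **Frobenius twist**: raising all coordinates to the `m`-th power multiplies the height by `m`. -/
theorem hgt_pow {p : ι → L} (hp : p ≠ 0) (hr : IsRat k p) (m : ℕ) :
    IsRat k (fun i => p i ^ m) ∧ hgt k (fun i => p i ^ m) = m * hgt k p := by
  obtain ⟨w, hw, hprim⟩ := hr.exists_isPrim hp
  obtain ⟨c, hc, rfl⟩ := hw
  have hrep : IsRep k (fun i => (c • fun i => algebraMap k[X] L (w i)) i ^ m)
      (fun i => w i ^ m) := by
    refine ⟨c ^ m, pow_ne_zero _ hc, ?_⟩
    funext i
    simp [mul_pow]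
  refine ⟨⟨_, hrep⟩, ?_⟩
  rw [hgt_eq_maxDeg hrep (isPrim_pow hprim m), hgt_eq_maxDeg ⟨c, hc, rfl⟩ hprim, maxDeg_pow]

end pow

section const

variable {k : Type*} [Field k] {L : Type*} [Field L] [Algebra k[X] L] [FaithfulSMul k[X] L]
  [Algebra k L] [IsScalarTower k k[X] L]

lemma algebraMap_eq_div (c : k) :
    algebraMap k L c = algebraMap k[X] L (C c) / algebraMap k[X] L 1 := by
  rw [map_one, div_one, IsScalarTower.algebraMap_apply k k[X] L, Polynomial.algebraMap_eq]

/-- Height `0` means constant. -/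
theorem hgt_eq_zero_iff {x : L} (hx : IsRat k ![x, 1]) :
    hgt k ![x, 1] = 0 ↔ ∃ c : k, x = algebraMap k L c := by
  constructor
  · intro h0
    obtain ⟨a, b, hb, hab, rfl⟩ := hx.exists_div
    rw [hgt_div_one hb hab] at h0
    have ha0 : a.natDegree = 0 := by omega
    have hb0 : b.natDegree = 0 := by omega
    rw [eq_C_of_natDegree_eq_zero ha0, eq_C_of_natDegree_eq_zero hb0]
    refine ⟨a.coeff 0 / b.coeff 0, ?_⟩
    rw [map_div₀, IsScalarTower.algebraMap_apply k k[X] L, IsScalarTower.algebraMap_apply k k[X] L,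
      Polynomial.algebraMap_eq]
  · rintro ⟨c, rfl⟩
    rw [algebraMap_eq_div, hgt_div_one one_ne_zero isCoprime_one_right]
    simp

end const

section points

open WeierstrassCurve WeierstrassCurve.Affine

variable {k : Type*} [Field k] {W : WeierstrassCurve k}
variable {L : Type*} [Field L] [Algebra k[X] L] [FaithfulSMul k[X] L] [Algebra k L]
  [IsScalarTower k k[X] L]

lemma xRat_some_def {x y : L} (h : (W⁄L).Nonsingular x y) :
    XRat W (Affine.Point.some x y h) ↔ IsRat k ![x, 1] := Iff.rfl

lemma xdeg_some_def {x y : L} (h : (W⁄L).Nonsingular x y) :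
    xdeg W (Affine.Point.some x y h) = hgt k ![x, 1] := rfl

/-- `deg (α ∘ β) = deg α * deg β`, point form. -/
theorem xdeg_of_x_eq_aeval_div {A B : k[X]} (hAB : IsCoprime A B) {x y x' y' : L}
    (h : (W⁄L).Nonsingular x y) (h' : (W⁄L).Nonsingular x' y')
    (hP : XRat W (Affine.Point.some x y h)) (hB : aeval x B ≠ 0)
    (hx' : x' = aeval x A / aeval x B) :
    XRat W (Affine.Point.some x' y' h') ∧
      xdeg W (Affine.Point.some x' y' h') =
        max A.natDegree B.natDegree * xdeg W (Affine.Point.some x y h) := by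
  subst hx'
  exact hgt_aeval_div hAB hP hB

/-- `deg (Φ ψ) = ℓ deg ψ`, point form. -/
theorem xdeg_of_x_eq_pow {x y x' y' : L} (h : (W⁄L).Nonsingular x y)
    (h' : (W⁄L).Nonsingular x' y') (hP : XRat W (Affine.Point.some x y h)) {m : ℕ}
    (hx' : x' = x ^ m) :
    XRat W (Affine.Point.some x' y' h') ∧
      xdeg W (Affine.Point.some x' y' h') = m * xdeg W (Affine.Point.some x y h) := by
  subst hx'
  have hne : (![x, 1] : Fin 2 → L) ≠ 0 := fun h0 => by simpa using congrFun h0 1
  have := hgt_pow hne hP m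
  have e : (fun i => (![x, 1] : Fin 2 → L) i ^ m) = ![x ^ m, 1] := by
    funext i
    fin_cases i <;> simp
  rw [e] at this
  exact this

/-- A point of `xdeg` zero is the origin or has a constant x-coordinate. -/
theorem xdeg_eq_zero_iff {P : (W⁄L).Point} (hP : XRat W P) :
    xdeg W P = 0 ↔ P = 0 ∨ ∃ (c : k) (y : L) (h : (W⁄L).Nonsingular (algebraMap k L c) y),
      P = Affine.Point.some (algebraMap k L c) y h := by
  cases P with
  | zero =>
    have h0 : (Affine.Point.zero : (W⁄L).Point) = 0 := rfl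
    rw [h0]
    simp
  | some x y h =>
    rw [xdeg_some_def, hgt_eq_zero_iff hP]
    constructor
    · rintro ⟨c, rfl⟩
      exact Or.inr ⟨c, y, h, rfl⟩
    · rintro (h0 | ⟨c, y', h', he⟩)
      · exact absurd h0 (Affine.Point.some_ne_zero h)
      · refine ⟨c, ?_⟩
        injection he

end points

end Fermat.Agent.S58lib.Par
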